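import Fermat.Agent.ThreePrimes.Exponential
import Mathlib.Analysis.Fourier.AddCircle
import Mathlib.MeasureTheory.Integral.IntervalIntegral.Periodic

/-!
# Weyl's criterion

For averages over finite sets `s N` of indices, the fractional parts of `x` fall into every
interval in proportion to its length iff every exponential mean of `x` tends to zero. One
direction is the Stone–Weierstrass theorem and an upper bound by a tent function, the complement
giving the lower bound; the other is a Riemann sum.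
-/

set_option autoImplicit false

noncomputable section

namespace FA.Equidist

open Filter Topology Finset MeasureTheory
open FA.ThreePrimes (eAdd norm_eAdd)
open scoped Classical

/-- The mean of `f` over `s`. -/
def avg (s : Finset ℕ) (f : ℕ → ℂ) : ℂ := (∑ n ∈ s, f n) / (#s : ℂ)

/-- The exponential means tend to zero. -/
def ExpMeanZero (s : ℕ → Finset ℕ) (x : ℕ → ℝ) : Prop :=
  ∀ h : ℤ, h ≠ 0 → Tendsto (fun N => avg (s N) fun n => eAdd (h * x n)) atTop (𝓝 0)

/-- Each interval receives its length. -/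
def IntervalMean (s : ℕ → Finset ℕ) (x : ℕ → ℝ) : Prop :=
  ∀ a b : ℝ, 0 ≤ a → a ≤ b → b ≤ 1 →
    Tendsto (fun N => (#((s N).filter fun n => Int.fract (x n) ∈ Set.Ico a b) : ℝ) / #(s N))
      atTop (𝓝 (b - a))

theorem norm_avg_le (s : Finset ℕ) {f : ℕ → ℂ} {M : ℝ} (hM : 0 ≤ M) (h : ∀ n ∈ s, ‖f n‖ ≤ M) :
    ‖avg s f‖ ≤ M := by
  rw [avg, norm_div, Complex.norm_natCast]
  refine div_le_of_le_mul₀ (Nat.cast_nonneg _) hM ((norm_sum_le_of_le s h).trans (le_of_eq ?_))
  rw [sum_const, nsmul_eq_mul, mul_comm]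

theorem fourier_coe_eq_eAdd (h : ℤ) (t : ℝ) :
    fourier h (t : AddCircle (1 : ℝ)) = eAdd (h * t) := by
  rw [fourier_coe_apply, eAdd]
  congr 1
  push_cast
  ring

/-- The integral over the circle. -/
def circMean (f : C(AddCircle (1 : ℝ), ℂ)) : ℂ := ∫ θ, f θ ∂AddCircle.haarAddCircle

theorem norm_circMean_le (f : C(AddCircle (1 : ℝ), ℂ)) : ‖circMean f‖ ≤ ‖f‖ := by
  refine (norm_integral_le_of_norm_le_const (C := ‖f‖)
    (Eventually.of_forall fun θ => f.norm_coe_le_norm θ)).trans (le_of_eq ?_)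
  rw [probReal_univ, mul_one]

theorem integrable_circle (f : C(AddCircle (1 : ℝ), ℂ)) :
    Integrable f AddCircle.haarAddCircle := f.continuous.integrable_of_hasCompactSupport
      (HasCompactSupport.of_compactSpace f)

theorem circMean_sub (f g : C(AddCircle (1 : ℝ), ℂ)) :
    circMean (f - g) = circMean f - circMean g := by
  simp only [circMean, ContinuousMap.sub_apply]
  exact integral_sub (integrable_circle f) (integrable_circle g)

theorem circMean_fourier (h : ℤ) : circMean (fourier h) = if h = 0 then 1 else 0 := by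
  have e := congrFun (fourierCoeff_fourier (T := (1 : ℝ)) h) 0
  rw [fourierCoeff] at e
  simp only [neg_zero, fourier_zero, one_smul] at e
  rw [circMean, e, Pi.single_apply]
  by_cases h0 : h = 0 <;> simp [h0, eq_comm]

variable {s : ℕ → Finset ℕ} {x : ℕ → ℝ}

/-- **Continuous periodic functions** have their integral as mean. -/
theorem tendsto_avg_circle (hs : Tendsto (fun N => #(s N)) atTop atTop) (hx : ExpMeanZero s x)
    (f : C(AddCircle (1 : ℝ), ℂ)) :
    Tendsto (fun N => avg (s N) fun n => f (x n : AddCircle (1 : ℝ))) atTop (𝓝 (circMean f)) := by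
  have hadd : ∀ (g g' : C(AddCircle (1 : ℝ), ℂ)) (N : ℕ),
      avg (s N) (fun n => (g + g') (x n : AddCircle (1 : ℝ))) =
        avg (s N) (fun n => g (x n : AddCircle (1 : ℝ))) +
          avg (s N) fun n => g' (x n : AddCircle (1 : ℝ)) := fun g g' N => by
    simp only [avg, ContinuousMap.add_apply, sum_add_distrib, add_div]
  have hspan : ∀ g ∈ Submodule.span ℂ (Set.range <| @fourier 1), Tendsto
      (fun N => avg (s N) fun n => g (x n : AddCircle (1 : ℝ))) atTop (𝓝 (circMean g)) := by
    intro g hg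
    induction hg using Submodule.span_induction with
    | mem g hg =>
      obtain ⟨h, rfl⟩ := hg
      rw [circMean_fourier]
      split_ifs with h0
      · subst h0
        refine tendsto_const_nhds.congr' ?_
        filter_upwards [hs.eventually (eventually_gt_atTop 0)] with N hN
        simp only [avg, fourier_zero, sum_const, nsmul_eq_mul, mul_one]
        rw [div_self (Nat.cast_ne_zero.2 hN.ne')]
      · simp only [fourier_coe_eq_eAdd]
        exact hx h h0
    | zero => simp [avg, circMean]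
    | add g g' _ _ hg hg' =>
      have hm : circMean (g + g') = circMean g + circMean g' := by
        simp only [circMean, ContinuousMap.add_apply]
        exact integral_add (integrable_circle g) (integrable_circle g')
      rw [hm]
      exact (hg.add hg').congr fun N => (hadd g g' N).symm
    | smul c g _ hg =>
      have hm : circMean (c • g) = c * circMean g := by
        simp only [circMean, ContinuousMap.smul_apply, smul_eq_mul]
        exact integral_const_mul c _
      rw [hm]
      refine (hg.const_mul c).congr fun N => ?_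
      simp only [avg, ContinuousMap.smul_apply, smul_eq_mul, ← mul_sum, mul_div_assoc]
  rw [Metric.tendsto_atTop]
  intro ε hε
  have hf : f ∈ (Submodule.span ℂ (Set.range <| @fourier 1)).topologicalClosure := by
    rw [span_fourier_closure_eq_top]; exact Submodule.mem_top
  rw [← SetLike.mem_coe, Submodule.topologicalClosure_coe, Metric.mem_closure_iff] at hf
  obtain ⟨g, hg, hfg⟩ := hf (ε / 3) (by linarith)
  obtain ⟨N₀, hN₀⟩ := Metric.tendsto_atTop.1 (hspan g hg) (ε / 3) (by linarith)
  refine ⟨N₀, fun N hN => ?_⟩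
  have h1 : ‖avg (s N) (fun n => f (x n : AddCircle (1 : ℝ))) -
      avg (s N) (fun n => g (x n : AddCircle (1 : ℝ)))‖ ≤ ε / 3 := by
    rw [avg, avg, ← sub_div, ← sum_sub_distrib]
    refine norm_avg_le (s N)
      (f := fun n => f (x n : AddCircle (1 : ℝ)) - g (x n : AddCircle (1 : ℝ)))
      (by linarith) fun n _ => ?_
    rw [← ContinuousMap.sub_apply]
    exact ((f - g).norm_coe_le_norm _).trans (dist_eq_norm f g ▸ hfg.le)
  have h2 : ‖circMean g - circMean f‖ ≤ ε / 3 := by
    rw [← circMean_sub]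
    refine (norm_circMean_le _).trans ?_
    rw [← dist_eq_norm, dist_comm]
    exact hfg.le
  have h3 := hN₀ N hN
  rw [dist_eq_norm] at h3 ⊢
  calc ‖avg (s N) (fun n => f (x n : AddCircle (1 : ℝ))) - circMean f‖
      = ‖(avg (s N) (fun n => f (x n : AddCircle (1 : ℝ))) -
          avg (s N) (fun n => g (x n : AddCircle (1 : ℝ)))) +
        ((avg (s N) (fun n => g (x n : AddCircle (1 : ℝ))) - circMean g) +
          (circMean g - circMean f))‖ := by ring_nf
    _ < ε := by
      refine (norm_add_le _ _).trans_lt ?_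
      have := norm_add_le (avg (s N) (fun n => g (x n : AddCircle (1 : ℝ))) - circMean g)
        (circMean g - circMean f)
      linarith

/-- The upper bound for an interval. -/
theorem eventually_count_le (hs : Tendsto (fun N => #(s N)) atTop atTop) (hx : ExpMeanZero s x)
    {a b : ℝ} (hab : a ≤ b) {ε : ℝ} (hε : 0 < ε) :
    ∀ᶠ N in atTop,
      (#((s N).filter fun n => Int.fract (x n) ∈ Set.Ico a b) : ℝ) / #(s N) ≤ b - a + ε := by
  obtain ⟨c, hc⟩ : ∃ c : ℝ, c = (a + b) / 2 := ⟨_, rfl⟩
  obtain ⟨δ, hδ⟩ : ∃ δ : ℝ, δ = ε / 4 := ⟨_, rfl⟩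
  have hδ0 : 0 < δ := by linarith
  obtain ⟨r, hr⟩ : ∃ r : ℝ, r = (b - a) / 2 := ⟨_, rfl⟩
  let G : AddCircle (1 : ℝ) → ℝ :=
    fun θ => max 0 (min 1 ((r + δ - ‖θ - (c : AddCircle (1 : ℝ))‖) / δ))
  have hG : Continuous G := by fun_prop
  let F : C(AddCircle (1 : ℝ), ℂ) := ⟨fun θ => (G θ : ℂ), by fun_prop⟩
  have hG1 : ∀ θ, G θ ≤ 1 := fun θ => max_le zero_le_one (min_le_left _ _)
  have hFle : (circMean F).re ≤ b - a + 2 * δ := by
    have e : circMean F = ((∫ θ, G θ ∂AddCircle.haarAddCircle : ℝ) : ℂ) :=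
      integral_complex_ofReal
    rw [e, Complex.ofReal_re, AddCircle.integral_haarAddCircle, inv_one, one_smul]
    refine le_trans (integral_mono_of_nonneg (g := (Metric.closedBall
      (c : AddCircle (1 : ℝ)) (r + δ)).indicator fun _ => (1 : ℝ))
      (Eventually.of_forall fun θ => le_max_left _ _)
      ((integrable_const 1).indicator measurableSet_closedBall)
      (Eventually.of_forall fun θ => ?_)) ?_
    · by_cases hθ : θ ∈ Metric.closedBall (c : AddCircle (1 : ℝ)) (r + δ)
      · rw [Set.indicator_of_mem hθ]; exact hG1 θ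
      · rw [Set.indicator_of_notMem hθ]
        refine max_le le_rfl ((min_le_right _ _).trans (div_nonpos_of_nonpos_of_nonneg ?_ hδ0.le))
        rw [Metric.mem_closedBall, dist_eq_norm, not_le] at hθ
        linarith
    · rw [integral_indicator_const _ measurableSet_closedBall, smul_eq_mul, mul_one,
        measureReal_def, AddCircle.volume_closedBall, ENNReal.toReal_ofReal
          (le_min zero_le_one (by linarith))]
      refine (min_le_right _ _).trans ?_
      linarith
  have hmem : ∀ n, Int.fract (x n) ∈ Set.Ico a b → G (x n : AddCircle (1 : ℝ)) = 1 := by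
    intro n hn
    have h1 : ‖(x n : AddCircle (1 : ℝ)) - (c : AddCircle (1 : ℝ))‖ ≤ r := by
      rw [← AddCircle.coe_sub, UnitAddCircle.norm_eq]
      refine (round_le (x n - c) ⌊x n⌋).trans ?_
      rw [show x n - c - ⌊x n⌋ = Int.fract (x n) - c by rw [Int.fract]; ring, abs_le]
      obtain ⟨h2, h3⟩ := hn
      constructor <;> linarith
    show max 0 (min 1 _) = (1 : ℝ)
    rw [min_eq_left ((one_le_div hδ0).2 (by linarith)), max_eq_right zero_le_one]
  have hlim := (Complex.continuous_re.tendsto _).comp (tendsto_avg_circle hs hx F)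
  filter_upwards [hlim.eventually
    (eventually_lt_nhds (show (circMean F).re < b - a + ε by linarith))] with N hN
  refine le_trans ?_ hN.le
  simp only [Function.comp_apply, avg]
  rw [Complex.div_natCast_re, Complex.re_sum]
  refine div_le_div_of_nonneg_right ?_ (Nat.cast_nonneg _)
  rw [Finset.card_filter, Nat.cast_sum]
  refine sum_le_sum fun n _ => ?_
  show _ ≤ ((G (x n : AddCircle (1 : ℝ)) : ℝ) : ℂ).re
  rw [Complex.ofReal_re]
  split_ifs with h
  · rw [hmem n h, Nat.cast_one]
  · rw [Nat.cast_zero]; exact le_max_left _ _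

/-- **Weyl's criterion**, from the exponential means to the intervals. -/
theorem ExpMeanZero.intervalMean (hs : Tendsto (fun N => #(s N)) atTop atTop)
    (hx : ExpMeanZero s x) : IntervalMean s x := by
  intro a b ha hab hb
  refine tendsto_order.2 ⟨fun y hy => ?_, fun y hy => ?_⟩
  · filter_upwards [eventually_count_le hs hx (a := 0) (b := a) ha
        (ε := (b - a - y) / 3) (by linarith),
      eventually_count_le hs hx (a := b) (b := 1) hb (ε := (b - a - y) / 3) (by linarith),
      hs.eventually (eventually_gt_atTop 0)] with N h1 h2 hN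
    have hN' : (0 : ℝ) < #(s N) := Nat.cast_pos.2 hN
    have hsum : (#(s N) : ℝ) ≤ #((s N).filter fun n => Int.fract (x n) ∈ Set.Ico (0 : ℝ) a) +
        #((s N).filter fun n => Int.fract (x n) ∈ Set.Ico a b) +
        #((s N).filter fun n => Int.fract (x n) ∈ Set.Ico b (1 : ℝ)) := by
      rw [← Nat.cast_add, ← Nat.cast_add, Nat.cast_le]
      refine (card_le_card fun n hn => ?_).trans
        ((card_union_le _ _).trans (Nat.add_le_add_right (card_union_le _ _) _))
      simp only [mem_union, mem_filter, Set.mem_Ico]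
      have h0 := Int.fract_nonneg (x n)
      have h1 := Int.fract_lt_one (x n)
      rcases lt_or_ge (Int.fract (x n)) a with h | h
      · exact Or.inl (Or.inl ⟨hn, h0, h⟩)
      rcases lt_or_ge (Int.fract (x n)) b with h' | h'
      · exact Or.inl (Or.inr ⟨hn, h, h'⟩)
      · exact Or.inr ⟨hn, h', h1⟩
    rw [div_le_iff₀ hN'] at h1 h2
    rw [lt_div_iff₀ hN']
    nlinarith [mul_pos (show 0 < (b - a - y) / 3 by linarith) hN']
  · filter_upwards [eventually_count_le hs hx hab (ε := (y - (b - a)) / 2) (by linarith)] with N h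
    linarith

/-- `e` is Lipschitz. -/
theorem norm_eAdd_sub_le (u v : ℝ) : ‖eAdd u - eAdd v‖ ≤ 2 * Real.pi * |u - v| := by
  have e : eAdd u - eAdd v = eAdd v * (eAdd (u - v) - 1) := by
    rw [mul_sub, ← FA.ThreePrimes.eAdd_add, add_sub_cancel, mul_one]
  rw [e, norm_mul, norm_eAdd, one_mul]
  have h := Real.norm_exp_I_mul_ofReal_sub_one_le (x := 2 * Real.pi * (u - v))
  rw [Real.norm_eq_abs, abs_mul, abs_of_pos (by positivity)] at h
  rwa [eAdd, mul_comm ((2 * Real.pi * (u - v) : ℝ) : ℂ) Complex.I]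

/-- **Weyl's criterion**, from the intervals to the exponential means. -/
theorem IntervalMean.expMeanZero (hx : IntervalMean s x) : ExpMeanZero s x := by
  intro h h0
  refine Metric.tendsto_atTop.2 fun ε hε => ?_
  obtain ⟨m, hm⟩ := exists_nat_gt (max (|(h : ℝ)|) (4 * Real.pi * |(h : ℝ)| / ε))
  rw [max_lt_iff] at hm
  have hm0 : (0 : ℝ) < m := (abs_nonneg _).trans_lt hm.1
  obtain ⟨z, hz⟩ : ∃ z : ℂ, z = eAdd (h * (1 / m)) := ⟨_, rfl⟩
  have hzm : z ^ m = 1 := by
    rw [hz, ← FA.ThreePrimes.eAdd_nat_mul, show (m : ℝ) * (h * (1 / m)) = (h : ℝ) by field_simp,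
      FA.ThreePrimes.eAdd_intCast]
  have hz1 : z ≠ 1 := fun e => by
    rw [hz, eAdd, Complex.exp_eq_one_iff] at e
    obtain ⟨k, hk⟩ := e
    have h2 : ((2 * Real.pi * ((h : ℝ) * (1 / m)) : ℝ) : ℂ) = ((2 * Real.pi * k : ℝ) : ℂ) := by
      refine mul_right_cancel₀ Complex.I_ne_zero (hk.trans ?_)
      push_cast; ring
    have h3 := mul_left_cancel₀ (by positivity) (Complex.ofReal_inj.1 h2)
    have h4 : (h : ℝ) = (k : ℝ) * m := by rw [← h3]; field_simp
    rcases eq_or_ne k 0 with rfl | hk0
    · exact h0 (by exact_mod_cast (by simpa using h4 : (h : ℝ) = 0))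
    · have h5 : (1 : ℝ) ≤ |(k : ℝ)| := by exact_mod_cast Int.one_le_abs hk0
      have h6 : |(h : ℝ)| = |(k : ℝ)| * m := by rw [h4, abs_mul, Nat.abs_cast]
      have := mul_le_mul_of_nonneg_right h5 hm0.le
      linarith [hm.1]
  have hgeom : ∑ k ∈ range m, eAdd (h * (k / m)) = 0 := by
    have : ∑ k ∈ range m, z ^ k = 0 := by rw [geom_sum_eq hz1, hzm, sub_self, zero_div]
    refine Eq.trans (sum_congr rfl fun k _ => ?_) this
    rw [hz, ← FA.ThreePrimes.eAdd_nat_mul]
    ring_nf
  let C : ℕ → ℕ → Finset ℕ := fun N k =>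
    (s N).filter fun n => Int.fract (x n) ∈ Set.Ico ((k : ℝ) / m) (((k : ℝ) + 1) / m)
  have hlim : Tendsto (fun N => ∑ k ∈ range m, ((#(C N k) : ℝ) / #(s N) : ℝ) •
      eAdd (h * (k / m))) atTop (𝓝 0) := by
    have h7 := tendsto_finsetSum (range m) fun k hk =>
      (hx ((k : ℝ) / m) (((k : ℝ) + 1) / m) (by positivity) (by gcongr; linarith)
        ((div_le_one hm0).2 (by exact_mod_cast Finset.mem_range.1 hk))).smul_const
          (eAdd (h * (k / m)))
    have h8 : ∑ k ∈ range m, (((k : ℝ) + 1) / m - (k : ℝ) / m) • eAdd (h * (k / m)) = 0 := by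
      simp only [← sub_div, add_sub_cancel_left, ← smul_sum, hgeom, smul_zero]
    rwa [h8] at h7
  obtain ⟨N₀, hN₀⟩ := Metric.tendsto_atTop.1 hlim (ε / 2) (by linarith)
  refine ⟨N₀, fun N hN => ?_⟩
  have h9 := hN₀ N hN
  rw [dist_zero_right] at h9 ⊢
  have hidx : ∀ n, ⌊Int.fract (x n) * m⌋₊ < m := fun n => by
    rw [Nat.floor_lt (mul_nonneg (Int.fract_nonneg _) hm0.le)]
    exact (mul_lt_iff_lt_one_left hm0).2 (Int.fract_lt_one _)
  have hC : ∀ k, ((s N).filter fun n => ⌊Int.fract (x n) * m⌋₊ = k) = C N k := fun k => by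
    refine filter_congr fun n _ => ?_
    rw [Nat.floor_eq_iff (mul_nonneg (Int.fract_nonneg _) hm0.le), Set.mem_Ico, div_le_iff₀ hm0,
      lt_div_iff₀ hm0]
  have hsum : ∑ k ∈ range m, ((#(C N k) : ℝ) / #(s N) : ℝ) • eAdd (h * (k / m)) =
      avg (s N) fun n => eAdd (h * ((⌊Int.fract (x n) * m⌋₊ : ℝ) / m)) := by
    rw [avg, ← Finset.sum_fiberwise_of_maps_to (s := s N) (g := fun n => ⌊Int.fract (x n) * m⌋₊)
      (t := range m) (fun n _ => Finset.mem_range.2 (hidx n)), sum_div]
    refine sum_congr rfl fun k _ => ?_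
    rw [← hC k, sum_congr (s₂ := (s N).filter fun n => ⌊Int.fract (x n) * m⌋₊ = k) rfl
      (g := fun _ => eAdd (h * ((k : ℝ) / m))) fun n hn => by rw [(mem_filter.1 hn).2],
      sum_const, Complex.real_smul, nsmul_eq_mul]
    push_cast
    ring
  have herr : ‖avg (s N) (fun n => eAdd (h * x n)) -
      avg (s N) (fun n => eAdd (h * ((⌊Int.fract (x n) * m⌋₊ : ℝ) / m)))‖ ≤ ε / 2 := by
    rw [avg, avg, ← sub_div, ← sum_sub_distrib]
    refine norm_avg_le (s N) (f := fun n => eAdd (h * x n) -
      eAdd (h * ((⌊Int.fract (x n) * m⌋₊ : ℝ) / m))) (by linarith) fun n _ => ?_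
    have e : eAdd (h * x n) = eAdd (h * Int.fract (x n)) := by
      rw [show (h : ℝ) * x n = h * Int.fract (x n) + ((h * ⌊x n⌋ : ℤ) : ℝ) by
        push_cast; rw [Int.fract]; ring, FA.ThreePrimes.eAdd_add_intCast]
    rw [e]
    refine (norm_eAdd_sub_le _ _).trans ?_
    have h10 := Nat.floor_le (mul_nonneg (Int.fract_nonneg (x n)) hm0.le)
    have h11 := Nat.lt_floor_add_one (Int.fract (x n) * m)
    have h12 : |Int.fract (x n) - (⌊Int.fract (x n) * m⌋₊ : ℝ) / m| ≤ 1 / m := by
      rw [show Int.fract (x n) - (⌊Int.fract (x n) * m⌋₊ : ℝ) / m =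
        (Int.fract (x n) * m - ⌊Int.fract (x n) * m⌋₊) / m by field_simp, abs_div,
        abs_of_pos hm0, abs_of_nonneg (by linarith)]
      exact div_le_div_of_nonneg_right (by linarith) hm0.le
    rw [← mul_sub, abs_mul]
    have h13 : 4 * Real.pi * |(h : ℝ)| ≤ ε * m := by
      have := (div_lt_iff₀ hε).1 hm.2
      linarith
    calc 2 * Real.pi * (|(h : ℝ)| * |Int.fract (x n) - (⌊Int.fract (x n) * m⌋₊ : ℝ) / m|)
        ≤ 2 * Real.pi * (|(h : ℝ)| * (1 / m)) := by gcongr
      _ = (2 * Real.pi * |(h : ℝ)|) / m := by ring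
      _ ≤ ε / 2 := by rw [div_le_div_iff₀ hm0 two_pos]; linarith
  rw [hsum] at h9
  have := norm_le_norm_sub_add (avg (s N) (fun n => eAdd (h * x n)))
    (avg (s N) (fun n => eAdd (h * ((⌊Int.fract (x n) * m⌋₊ : ℝ) / m))))
  linarith

end FA.Equidist

end
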