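import Fermat.Agent.Equidistribution.Weyl
import Fermat.Agent.ThreePrimes.Circle
import Fermat.Agent.Root.SummaryPrimeNumberTheorem

/-!
# Vinogradov's theorem on `α p`

For irrational `α` a large `N` puts `α` either on the minor arcs, where Vaughan's identity gives a
saving of a power of `log N`, or on a major arc with centre `r / q`, where the sum is at most
`N / φ q` up to the error of Siegel and Walfisz; and `q` tends to infinity with `N`.
-/

set_option autoImplicit false

noncomputable section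

namespace FA.Equidist

open Filter Topology Finset ArithmeticFunction
open FA.ThreePrimes
open scoped Nat.Prime Classical

/-- The primes up to `N`. -/
def primeSet (N : ℕ) : Finset ℕ := (range (N + 1)).filter Nat.Prime

theorem card_primeSet (N : ℕ) : #(primeSet N) = π N := by
  rw [Nat.primeCounting, Nat.primeCounting', Nat.count_eq_card_filter_range, primeSet]

theorem tendsto_card_primeSet : Tendsto (fun N => #(primeSet N)) atTop atTop := by
  simpa [card_primeSet] using Nat.tendsto_primeCounting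

/-- Euler's function tends to infinity. -/
theorem le_of_totient_le {q K : ℕ} (hq : q ≠ 0) (h : q.totient ≤ K) :
    q ≤ ((K + 1) * (K + 1)) ^ (K + 2) := by
  have hbd : ∀ p ∈ q.primeFactors, p ≤ K + 1 ∧ p ^ q.factorization p ≤ (K + 1) * (K + 1) := by
    intro p hp
    have hpp := Nat.prime_of_mem_primeFactors hp
    obtain ⟨k, hk⟩ : ∃ k, q.factorization p = k + 1 := by
      refine Nat.exists_eq_succ_of_ne_zero ?_
      rw [← Nat.support_factorization, Finsupp.mem_support_iff] at hp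
      exact hp
    have h1 : (p ^ (k + 1)).totient ≤ K :=
      (Nat.le_of_dvd (Nat.totient_pos.2 (Nat.pos_of_ne_zero hq))
        (Nat.totient_dvd_of_dvd (hk ▸ Nat.ordProj_dvd q p))).trans h
    rw [Nat.totient_prime_pow_succ hpp] at h1
    have h2 := hpp.two_le
    have h3 : 1 ≤ p ^ k := Nat.one_le_pow _ _ hpp.pos
    have hp1 : p - 1 ≤ K :=
      le_trans (Nat.le_mul_of_pos_left _ h3) h1
    have hpk : p ^ k ≤ K := le_trans (Nat.le_mul_of_pos_right _ (by omega)) h1
    refine ⟨by omega, ?_⟩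
    rw [hk, pow_succ]
    exact Nat.mul_le_mul (by omega) (by omega)
  calc q = ∏ p ∈ q.primeFactors, p ^ q.factorization p := by
        conv_lhs => rw [← Nat.prod_factorization_pow_eq_self hq]
        rw [Finsupp.prod, Nat.support_factorization]
    _ ≤ ((K + 1) * (K + 1)) ^ #q.primeFactors :=
        Finset.prod_le_pow_card _ _ _ fun p hp => (hbd p hp).2
    _ ≤ _ := Nat.pow_le_pow_right (Nat.mul_pos (Nat.succ_pos _) (Nat.succ_pos _)) (by
        refine (card_le_card (t := range (K + 2)) fun p hp =>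
          mem_range.2 (Nat.lt_succ_of_le (hbd p hp).1)).trans_eq (card_range _))

theorem nearDist_pos_of_irrational {γ : ℝ} (hγ : Irrational γ) (r q : ℕ) :
    0 < nearDist (γ - (r : ℝ) / q) := by
  refine lt_of_le_of_ne (nearDist_nonneg _) fun h => ?_
  rw [nearDist, eq_comm, abs_eq_zero, sub_eq_zero] at h
  exact hγ ⟨(r : ℚ) / q + round (γ - (r : ℝ) / q), by push_cast; linarith⟩

/-- **The sum over the powers of primes is `o (N)`** at an irrational argument. -/
theorem tendsto_twist_div {γ : ℝ} (hγ : Irrational γ) :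
    Tendsto (fun N : ℕ => ‖twist γ Λ N‖ / N) atTop (𝓝 0) := by
  obtain ⟨C₁, hC₁, hminor⟩ := exists_minor_le 5
  obtain ⟨C₂, hC₂, hmajor⟩ := exists_major_approx 10 1
  rw [Metric.tendsto_atTop]
  intro ε hε
  obtain ⟨T, hT⟩ := exists_nat_gt (3 / ε)
  obtain ⟨Q, hQ⟩ : ∃ Q, Q = ((T + 1) * (T + 1)) ^ (T + 2) := ⟨_, rfl⟩
  obtain ⟨ρ, hρ0, hρ⟩ : ∃ ρ : ℝ, 0 < ρ ∧ ∀ z ∈ arcCentres Q, ρ ≤ nearDist (γ - centre z) := by
    rcases (arcCentres Q).eq_empty_or_nonempty with he | hne
    · exact ⟨1, one_pos, by simp [he]⟩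
    · obtain ⟨z, hz, hmin⟩ := Finset.exists_min_image _ (fun z => nearDist (γ - centre z)) hne
      exact ⟨_, nearDist_pos_of_irrational hγ z.2 z.1, hmin⟩
  have hlog : Tendsto (fun N : ℕ => Real.log N) atTop atTop :=
    Real.tendsto_log_atTop.comp tendsto_natCast_atTop_atTop
  have hsmall : Tendsto (fun N : ℕ => Real.log N ^ (2 * 5) / N) atTop (𝓝 0) := by
    have := (Real.tendsto_pow_log_div_mul_add_atTop 1 0 (2 * 5) one_ne_zero).comp
      (tendsto_natCast_atTop_atTop (R := ℝ))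
    simpa [Function.comp_def] using this
  obtain ⟨N₀, hN₀⟩ := eventually_atTop.1 ((hlog.eventually_ge_atTop
    (max 1 (3 * (C₁ + C₂) / ε))).and ((hsmall.eventually
      (eventually_lt_nhds (lt_min hρ0 one_pos))).and (eventually_ge_atTop 2)))
  refine ⟨N₀, fun N hN => ?_⟩
  obtain ⟨hl, hR, hN2⟩ := hN₀ N hN
  rw [max_le_iff] at hl
  rw [lt_min_iff] at hR
  have hN0 : (0 : ℝ) < N := by exact_mod_cast (by omega : 0 < N)
  rw [Real.dist_eq, sub_zero, abs_of_nonneg (by positivity), div_lt_iff₀ hN0]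
  obtain ⟨l, hldef⟩ : ∃ l, l = Real.log N := ⟨_, rfl⟩
  rw [← hldef] at hl hR
  have hl0 : 0 < l := by linarith [hl.1]
  have hsave : (C₁ + C₂) * ((N : ℝ) / l) ≤ ε / 3 * N := by
    rw [mul_div_assoc', div_le_iff₀ hl0]
    have := (div_le_iff₀ hε).1 hl.2
    nlinarith
  have hC₁' : C₁ * ((N : ℝ) / l) ≤ (C₁ + C₂) * ((N : ℝ) / l) :=
    mul_le_mul_of_nonneg_right (by linarith) (by positivity)
  have hC₂' : C₂ * ((N : ℝ) / l) ≤ (C₁ + C₂) * ((N : ℝ) / l) :=
    mul_le_mul_of_nonneg_right (by linarith) (by positivity)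
  by_cases hout : ∀ z ∈ arcCentres ⌊l ^ (2 * 5)⌋₊, l ^ (2 * 5) / N < nearDist (γ - centre z)
  · have h := hminor N ⌊l ^ (2 * 5)⌋₊ γ (hldef ▸ hl.1)
      (hldef ▸ ((div_lt_one hN0).1 hR.2).le) (by rw [hldef]) (by rwa [← hldef])
    rw [← hldef, show C₁ * ((N : ℝ) * l ^ 4 / l ^ 5) = C₁ * ((N : ℝ) / l) by field_simp] at h
    nlinarith
  push Not at hout
  obtain ⟨⟨q, r⟩, hz, hnear⟩ := hout
  have hzQ : (⟨q, r⟩ : Σ _ : ℕ, ℕ) ∉ arcCentres Q := fun hmem =>
    absurd ((hρ _ hmem).trans hnear) (not_le.2 hR.1)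
  obtain ⟨⟨hq1, hqP⟩, hrq, hcop⟩ := mem_arcCentres.1 hz
  simp only at hq1 hqP hrq hcop hnear hzQ
  have hqQ : Q < q := not_le.1 fun hle => hzQ (mem_arcCentres.2 ⟨⟨hq1, hle⟩, hrq, hcop⟩)
  have : NeZero q := ⟨by omega⟩
  have hφ : T < q.totient := not_le.1 fun hle => absurd
    ((le_of_totient_le (by omega) hle).trans_eq hQ.symm) (not_le.2 hqQ)
  set β := γ - (r : ℝ) / q - round (γ - (r : ℝ) / q) with hβdef
  have hβ : |β| * N ≤ l ^ (2 * 5) := (le_div_iff₀ hN0).1 hnear
  have hmaj := hmajor N q (r : ℤ) β hN2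
    (by rw [Int.cast_natCast, ZMod.isUnit_iff_coprime]; exact hcop.symm)
    (hldef ▸ (Nat.cast_le.2 hqP).trans (Nat.floor_le (by positivity))) (hldef ▸ hβ)
  have htw : twist (((r : ℤ) : ℝ) / q + β) Λ N = twist γ Λ N := by
    refine sum_congr rfl fun n _ => ?_
    rw [show (n : ℝ) * γ = (n : ℝ) * (((r : ℤ) : ℝ) / q + β) +
      (((n : ℤ) * round (γ - (r : ℝ) / q) : ℤ) : ℝ) by rw [hβdef]; push_cast; ring,
      eAdd_add_intCast]
  rw [htw, ← hldef, pow_one] at hmaj
  have hgeom : ‖((moebiusR q / q.totient : ℝ) : ℂ) * geomSum N β‖ ≤ ε / 3 * N := by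
    have hT' : 3 / ε < q.totient := hT.trans (by exact_mod_cast hφ)
    have hφ0 : (0 : ℝ) < q.totient := (by positivity : (0 : ℝ) < 3 / ε).trans hT'
    rw [norm_mul, Complex.norm_real, Real.norm_eq_abs, abs_div, Nat.abs_cast]
    refine mul_le_mul ?_ ?_ (norm_nonneg _) (by positivity)
    · refine (div_le_div_of_nonneg_right (abs_moebiusR_le q) hφ0.le).trans ?_
      rw [div_le_iff₀ hφ0]
      rw [div_lt_iff₀ hε] at hT'
      linarith
    · refine (norm_sum_le _ _).trans (le_of_eq ?_)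
      simp [norm_eAdd]
  have := norm_le_norm_sub_add (twist γ Λ N) (((moebiusR q / q.totient : ℝ) : ℂ) * geomSum N β)
  nlinarith

/-- The sum over the primes with logarithms. -/
theorem norm_sum_log_le (γ : ℝ) (N : ℕ) :
    ‖∑ p ∈ primeSet N, (Real.log p : ℂ) * eAdd (p * γ)‖ ≤
      ‖twist γ Λ N‖ + (Chebyshev.psi N - Chebyshev.theta N) := by
  rw [Chebyshev.psi_sub_theta_eq_sum_not_prime, Nat.floor_natCast]
  have hset : primeSet N = (Ioc 0 N).filter Nat.Prime := by
    ext p
    simp only [primeSet, mem_filter, mem_range, mem_Ioc]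
    exact ⟨fun h => ⟨⟨h.2.pos, by omega⟩, h.2⟩, fun h => ⟨by omega, h.2⟩⟩
  have hsplit : twist γ Λ N = (∑ p ∈ primeSet N, (Real.log p : ℂ) * eAdd (p * γ)) +
      ∑ n ∈ (Ioc 0 N).filter (fun n => ¬ n.Prime), (Λ n : ℂ) * eAdd (n * γ) := by
    rw [twist, ← sum_filter_add_sum_filter_not (Ioc 0 N) Nat.Prime, hset]
    congr 1
    exact sum_congr rfl fun p hp => by rw [vonMangoldt_apply_prime (mem_filter.1 hp).2]
  rw [eq_sub_of_add_eq hsplit.symm]
  refine (norm_sub_le _ _).trans (add_le_add le_rfl ((norm_sum_le _ _).trans (le_of_eq ?_)))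
  exact sum_congr rfl fun n _ => by
    rw [norm_mul, norm_eAdd, mul_one, Complex.norm_real, Real.norm_eq_abs,
      abs_of_nonneg vonMangoldt_nonneg]

/-- **The exponential mean over the primes** at an irrational argument. -/
theorem tendsto_avg_prime {γ : ℝ} (hγ : Irrational γ) :
    Tendsto (fun N => avg (primeSet N) fun p => eAdd (p * γ)) atTop (𝓝 0) := by
  obtain ⟨C, hC⟩ := Chebyshev.psi_sub_theta_le_mul_sqrt
  have hπ : Tendsto (fun N : ℕ => (π N : ℝ) * Real.log N / N) atTop (𝓝 1) := by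
    refine (FA.PNT.Summary.prime_number_theorem.comp tendsto_natCast_atTop_atTop).congr fun N => ?_
    simp only [Function.comp_apply, Nat.floor_natCast]
  have hθ : Tendsto (fun N : ℕ => Chebyshev.theta N / N) atTop (𝓝 1) :=
    FA.PNT.Summary.tendsto_theta.comp tendsto_natCast_atTop_atTop
  have hsqrt : Tendsto (fun N : ℕ => C * (Real.sqrt N / N)) atTop (𝓝 0) := by
    have h1 : Tendsto (fun N : ℕ => 1 / Real.sqrt N) atTop (𝓝 0) := by
      simp only [one_div]
      exact tendsto_inv_atTop_zero.comp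
        (Real.tendsto_sqrt_atTop.comp tendsto_natCast_atTop_atTop)
    simpa [Real.sqrt_div_self] using h1.const_mul C
  have hnum := (((tendsto_twist_div hγ).add hsqrt).add (hπ.sub hθ)).div hπ one_ne_zero
  simp only [add_zero, sub_self, zero_div] at hnum
  refine squeeze_zero_norm' ?_ hnum
  filter_upwards [eventually_ge_atTop 2] with N hN
  have hN0 : (0 : ℝ) < N := by exact_mod_cast (by omega : 0 < N)
  have hl : 0 < Real.log N := Real.log_pos (by exact_mod_cast (by omega : 1 < N))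
  have hπ0 : (0 : ℝ) < π N := by
    rw [← card_primeSet]
    exact Nat.cast_pos.2 (card_pos.2 ⟨2, mem_filter.2 ⟨mem_range.2 (by omega), Nat.prime_two⟩⟩)
  have hθN : Chebyshev.theta N = ∑ p ∈ primeSet N, Real.log p := by
    rw [Chebyshev.theta_eq_sum_Icc, Nat.floor_natCast, primeSet, Finset.range_eq_Ico,
      Finset.Ico_add_one_right_eq_Icc]
  have key : Real.log N * ‖∑ p ∈ primeSet N, eAdd (p * γ)‖ ≤
      ‖twist γ Λ N‖ + C * Real.sqrt N + ((π N : ℝ) * Real.log N - Chebyshev.theta N) := by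
    have e : (Real.log N : ℂ) * ∑ p ∈ primeSet N, eAdd (p * γ) =
        (∑ p ∈ primeSet N, (Real.log p : ℂ) * eAdd (p * γ)) +
          ∑ p ∈ primeSet N, ((Real.log N - Real.log p : ℝ) : ℂ) * eAdd (p * γ) := by
      rw [mul_sum, ← sum_add_distrib]
      exact sum_congr rfl fun p _ => by push_cast; ring
    have h := congrArg (‖·‖) e
    simp only [norm_mul, Complex.norm_real, Real.norm_eq_abs, abs_of_pos hl] at h
    rw [h]
    refine (norm_add_le _ _).trans (add_le_add ((norm_sum_log_le γ N).trans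
      (add_le_add le_rfl (hC N))) ((norm_sum_le _ _).trans (le_of_eq ?_)))
    rw [hθN, ← card_primeSet, ← nsmul_eq_mul, ← sum_const, ← sum_sub_distrib]
    refine sum_congr rfl fun p hp => ?_
    obtain ⟨hp1, hpp⟩ := mem_filter.1 hp
    rw [norm_mul, norm_eAdd, mul_one, Complex.norm_real, Real.norm_eq_abs, abs_of_nonneg
      (sub_nonneg.2 (Real.log_le_log (Nat.cast_pos.2 hpp.pos)
        (Nat.cast_le.2 (Nat.lt_succ_iff.1 (mem_range.1 hp1)))))]
  rw [avg, norm_div, Complex.norm_natCast, card_primeSet, Pi.div_apply]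
  rw [div_le_div_iff₀ hπ0 (by positivity)]
  have h2 := mul_le_mul_of_nonneg_left key hπ0.le
  calc ‖∑ p ∈ primeSet N, eAdd (p * γ)‖ * ((π N : ℝ) * Real.log N / N)
      = (π N : ℝ) * (Real.log N * ‖∑ p ∈ primeSet N, eAdd (p * γ)‖) / N := by ring
    _ ≤ (π N : ℝ) * (‖twist γ Λ N‖ + C * Real.sqrt N +
        ((π N : ℝ) * Real.log N - Chebyshev.theta N)) / N := div_le_div_of_nonneg_right h2 hN0.le
    _ = _ := by ring

/-- **Vinogradov's theorem**, exponential means, with a shift. -/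
theorem expMeanZero_prime {α : ℝ} (hα : Irrational α) (β : ℝ) :
    ExpMeanZero primeSet fun p => α * p + β := by
  intro h h0
  have := (tendsto_avg_prime (hα.intCast_mul h0)).const_mul (eAdd (h * β))
  rw [mul_zero] at this
  refine this.congr fun N => ?_
  simp only [avg, ← mul_div_assoc, mul_sum, ← eAdd_add]
  refine congrArg (· / _) (sum_congr rfl fun p _ => congrArg eAdd ?_)
  ring

end FA.Equidist

end
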