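import Fermat.Agent.Equidistribution.Criterion
import Mathlib.Algebra.Polynomial.Taylor
import Mathlib.NumberTheory.Real.Irrational
import Mathlib.Algebra.Order.Chebyshev

/-!
# Weyl's theorem on polynomials

Van der Corput's difference theorem, and by induction on the degree the equidistribution of a
polynomial sequence with an irrational coefficient above the constant one. When the only such
coefficient is the linear one, the sum is multiplied by a fixed root of absolute value one different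
from `1` under a shift by a common denominator of the others.
-/

set_option autoImplicit false

noncomputable section

namespace FA.Equidist

open Filter Topology Finset Polynomial
open FA.ThreePrimes (eAdd norm_eAdd)
open scoped ComplexConjugate

/-- A shift changes a sum by boundedly many terms. -/
theorem norm_sum_shift_sub_le {z : ℕ → ℂ} (hz : ∀ n, ‖z n‖ ≤ 1) (j N : ℕ) :
    ‖(∑ n ∈ range N, z (n + j)) - ∑ n ∈ range N, z n‖ ≤ 2 * j := by
  have e1 := sum_range_add z j N
  have e2 := sum_range_add z N j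
  rw [add_comm j N, e2] at e1
  have e3 : (∑ n ∈ range N, z (n + j)) - ∑ n ∈ range N, z n =
      (∑ n ∈ range j, z (N + n)) - ∑ n ∈ range j, z n := by
    rw [show (∑ n ∈ range N, z (n + j)) = ∑ n ∈ range N, z (j + n) from
      sum_congr rfl fun n _ => by rw [add_comm]]
    linear_combination -e1
  rw [e3]
  refine (norm_sub_le _ _).trans ?_
  have h1 := norm_sum_le_of_le (range j) (f := fun n => z (N + n)) fun n _ => hz _
  have h2 := norm_sum_le_of_le (range j) (f := z) fun n _ => hz _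
  rw [sum_const, card_range, nsmul_eq_mul, mul_one] at h1 h2
  linarith

theorem tendsto_avg_shift {z : ℕ → ℂ} (hz : ∀ n, ‖z n‖ ≤ 1)
    (h : Tendsto (fun N => avg (range N) z) atTop (𝓝 0)) (j : ℕ) :
    Tendsto (fun N => avg (range N) fun n => z (n + j)) atTop (𝓝 0) := by
  have h1 : Tendsto (fun N : ℕ => avg (range N) (fun n => z (n + j)) - avg (range N) z) atTop
      (𝓝 0) := by
    refine squeeze_zero_norm (fun N => ?_) (tendsto_const_div_atTop_nhds_zero_nat (2 * (j : ℝ)))
    rw [avg, avg, ← sub_div, norm_div, card_range, Complex.norm_natCast]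
    exact div_le_div_of_nonneg_right (norm_sum_shift_sub_le hz j N) (Nat.cast_nonneg _)
  simpa using h1.add h

/-- **Van der Corput's difference theorem.** -/
theorem tendsto_avg_of_correlation {z : ℕ → ℂ} (hz : ∀ n, ‖z n‖ ≤ 1)
    (h : ∀ d : ℕ, 0 < d → Tendsto (fun N => avg (range N) fun n => z (n + d) * conj (z n))
      atTop (𝓝 0)) :
    Tendsto (fun N => avg (range N) z) atTop (𝓝 0) := by
  refine Metric.tendsto_atTop.2 fun ε hε => ?_
  obtain ⟨H, hH⟩ := exists_nat_gt (2 / (ε / 2) ^ 2)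
  have hH0 : (0 : ℝ) < H := (by positivity : (0 : ℝ) < 2 / (ε / 2) ^ 2).trans hH
  have hH1 : (1 : ℝ) ≤ H := by exact_mod_cast (Nat.cast_pos.1 hH0 : 0 < H)
  let w : ℕ → ℕ → ℕ → ℂ := fun i j n => z (n + i) * conj (z (n + j))
  have hoff : ∀ i j, i ≠ j → Tendsto (fun N => avg (range N) (w i j)) atTop (𝓝 0) := by
    have hlt : ∀ i j, j < i → Tendsto (fun N => avg (range N) (w i j)) atTop (𝓝 0) := by
      intro i j hji
      refine (tendsto_avg_shift (z := fun n => z (n + (i - j)) * conj (z n)) (fun n => ?_)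
        (h _ (Nat.sub_pos_of_lt hji)) j).congr fun N => ?_
      · rw [norm_mul, RCLike.norm_conj]; exact mul_le_one₀ (hz _) (norm_nonneg _) (hz _)
      · simp only [w, add_assoc, Nat.add_sub_cancel' hji.le]
    intro i j hne
    rcases lt_or_gt_of_ne hne with hij | hij
    · have := (Complex.continuous_conj.tendsto 0).comp (hlt j i hij)
      rw [map_zero] at this
      refine this.congr fun N => ?_
      simp only [Function.comp_apply, avg, w, map_div₀, map_sum, map_mul, Complex.conj_conj,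
        map_natCast, mul_comm]
    · exact hlt i j hij
  have hsmall : Tendsto (fun N => ∑ p ∈ (range H ×ˢ range H).filter (fun p => p.1 ≠ p.2),
      ‖avg (range N) (w p.1 p.2)‖) atTop (𝓝 0) := by
    have := tendsto_finsetSum ((range H ×ˢ range H).filter fun p => p.1 ≠ p.2)
      fun p hp => (hoff p.1 p.2 (mem_filter.1 hp).2).norm
    simpa using this
  obtain ⟨N₁, hN₁⟩ := Metric.tendsto_atTop.1 hsmall 1 one_pos
  obtain ⟨N₂, hN₂⟩ := exists_nat_gt (4 * (H : ℝ) / ε)
  refine ⟨max N₁ (max N₂ 1), fun N hN => ?_⟩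
  have hN0 : (0 : ℝ) < N := by
    exact_mod_cast (show 0 < N by
      have := (le_max_right N₂ 1).trans ((le_max_right N₁ _).trans hN); omega)
  have hbd := hN₁ N ((le_max_left _ _).trans hN)
  rw [dist_zero_right, Real.norm_eq_abs, abs_of_nonneg (sum_nonneg fun p _ => norm_nonneg _)] at hbd
  let A : ℕ → ℂ := fun n => ∑ j ∈ range H, z (n + j)
  have hsq : ∑ n ∈ range N, ‖A n‖ ^ 2 ≤ (N : ℝ) * (H + 1) := by
    have e : ((∑ n ∈ range N, ‖A n‖ ^ 2 : ℝ) : ℂ) =
        (N : ℂ) * ∑ p ∈ range H ×ˢ range H, avg (range N) (w p.1 p.2) := by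
      simp only [avg, card_range]
      rw [mul_sum, sum_congr rfl fun p _ => mul_div_cancel₀ _
        (show (N : ℂ) ≠ 0 by exact_mod_cast hN0.ne'), sum_comm]
      push_cast
      refine sum_congr rfl fun n _ => ?_
      rw [← Complex.mul_conj', sum_product]
      simp only [A, w, map_sum, sum_mul_sum]
    have e2 := congrArg Complex.re e
    rw [Complex.ofReal_re, show (N : ℂ) = ((N : ℝ) : ℂ) by norm_cast, Complex.re_ofReal_mul] at e2
    rw [e2]
    refine mul_le_mul_of_nonneg_left ?_ hN0.le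
    rw [← sum_filter_add_sum_filter_not (range H ×ˢ range H) (fun p => p.1 = p.2),
      Complex.add_re]
    refine add_le_add ?_ ?_
    · refine (Complex.re_le_norm _).trans ((norm_sum_le_of_le _ (fun p _ => norm_avg_le _
        zero_le_one (fun n _ => ?_))).trans ?_)
      · simp only [w, norm_mul, RCLike.norm_conj]
        exact mul_le_one₀ (hz _) (norm_nonneg _) (hz _)
      · rw [sum_const, nsmul_eq_mul, mul_one, Nat.cast_le]
        refine (card_le_card_of_injOn (fun p => p.1) (fun p hp => ?_) ?_).trans_eq (card_range H)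
        · exact (mem_product.1 (mem_filter.1 hp).1).1
        · intro p hp q hq e'
          exact Prod.ext e' (((mem_filter.1 hp).2.symm.trans e').trans (mem_filter.1 hq).2)
    · exact (Complex.re_le_norm _).trans ((norm_sum_le _ _).trans hbd.le)
  have hA : ‖∑ n ∈ range N, A n‖ ^ 2 ≤ (N : ℝ) ^ 2 * (H + 1) := by
    calc ‖∑ n ∈ range N, A n‖ ^ 2 ≤ (∑ n ∈ range N, ‖A n‖) ^ 2 :=
          pow_le_pow_left₀ (norm_nonneg _) (norm_sum_le _ _) 2
      _ ≤ (N : ℝ) * ∑ n ∈ range N, ‖A n‖ ^ 2 := by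
          simpa using sq_sum_le_card_mul_sum_sq (s := range N) (f := fun n => ‖A n‖)
      _ ≤ (N : ℝ) * ((N : ℝ) * (H + 1)) := mul_le_mul_of_nonneg_left hsq hN0.le
      _ = _ := by ring
  have hdiff : ‖(∑ n ∈ range N, A n) - (H : ℂ) * ∑ n ∈ range N, z n‖ ≤ 2 * (H : ℝ) ^ 2 := by
    have e : (∑ n ∈ range N, A n) - (H : ℂ) * ∑ n ∈ range N, z n =
        ∑ j ∈ range H, ((∑ n ∈ range N, z (n + j)) - ∑ n ∈ range N, z n) := by
      rw [sum_sub_distrib, sum_const, card_range, nsmul_eq_mul, sum_comm]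
    rw [e]
    refine (norm_sum_le_of_le _ fun j hj => (norm_sum_shift_sub_le hz j N).trans
      (mul_le_mul_of_nonneg_left (Nat.cast_le.2 (mem_range.1 hj).le) two_pos.le)).trans
      (le_of_eq ?_)
    rw [sum_const, card_range, nsmul_eq_mul]
    ring
  have hA' : ‖∑ n ∈ range N, A n‖ < H * (ε / 2) * N := by
    refine lt_of_pow_lt_pow_left₀ 2 (by positivity) (hA.trans_lt ?_)
    rw [div_lt_iff₀ (by positivity)] at hH
    have h3 : ((H : ℝ) + 1) < H * ((H : ℝ) * (ε / 2) ^ 2) :=
      lt_of_le_of_lt (by linarith) (mul_lt_mul_of_pos_left hH hH0)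
    calc (N : ℝ) ^ 2 * ((H : ℝ) + 1) < (N : ℝ) ^ 2 * (H * ((H : ℝ) * (ε / 2) ^ 2)) :=
          mul_lt_mul_of_pos_left h3 (by positivity)
      _ = _ := by ring
  have hN2 : 4 * (H : ℝ) < ε * N := by
    rw [div_lt_iff₀ hε] at hN₂
    have : (N₂ : ℝ) ≤ N := Nat.cast_le.2 ((le_max_left _ _).trans ((le_max_right _ _).trans hN))
    nlinarith
  rw [dist_zero_right, avg, norm_div, card_range, Complex.norm_natCast, div_lt_iff₀ hN0]
  have h4 : (H : ℝ) * ‖∑ n ∈ range N, z n‖ ≤ ‖∑ n ∈ range N, A n‖ + 2 * (H : ℝ) ^ 2 := by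
    rw [← Complex.norm_natCast, ← norm_mul, Complex.norm_natCast]
    rw [norm_sub_rev] at hdiff
    linarith [norm_le_norm_sub_add ((H : ℂ) * ∑ n ∈ range N, z n) (∑ n ∈ range N, A n)]
  refine lt_of_mul_lt_mul_left ?_ hH0.le
  nlinarith [mul_lt_mul_of_pos_left hN2 hH0]

theorem eAdd_mul_conj (u v : ℝ) : eAdd u * conj (eAdd v) = eAdd (u - v) := by
  rw [FA.ThreePrimes.conj_eAdd, ← FA.ThreePrimes.eAdd_add, sub_eq_add_neg]

/-- A sum multiplied by a fixed unit under a shift is bounded. -/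
theorem tendsto_avg_of_periodic {z : ℕ → ℂ} (hz : ∀ n, ‖z n‖ ≤ 1) {q : ℕ} {μ : ℂ} (hμ : μ ≠ 1)
    (h : ∀ n, z (n + q) = μ * z n) : Tendsto (fun N => avg (range N) z) atTop (𝓝 0) := by
  refine squeeze_zero_norm (fun N => ?_)
    (tendsto_const_div_atTop_nhds_zero_nat (2 * (q : ℝ) / ‖μ - 1‖))
  rw [avg, norm_div, card_range, Complex.norm_natCast]
  refine div_le_div_of_nonneg_right ?_ (Nat.cast_nonneg _)
  rw [le_div_iff₀ (norm_pos_iff.2 (sub_ne_zero.2 hμ)), mul_comm, ← norm_mul, sub_mul, one_mul,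
    mul_sum, ← sum_congr rfl fun n _ => h n]
  exact norm_sum_shift_sub_le hz q N

theorem exists_intCast_mul_of_not_irrational {c : ℝ} (h : ¬ Irrational c) :
    ∃ r : ℚ, c = (r : ℝ) := by
  simp only [Irrational, Set.mem_range, not_not] at h
  obtain ⟨r, hr⟩ := h
  exact ⟨r, hr.symm⟩

theorem eAdd_ne_one_of_irrational {u : ℝ} (h : Irrational u) : eAdd u ≠ 1 := fun e => by
  rw [eAdd, Complex.exp_eq_one_iff] at e
  obtain ⟨k, hk⟩ := e
  have h2 : ((2 * Real.pi * u : ℝ) : ℂ) = ((2 * Real.pi * k : ℝ) : ℂ) := by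
    refine mul_right_cancel₀ Complex.I_ne_zero (hk.trans ?_)
    push_cast; ring
  exact h.ne_int k (mul_left_cancel₀ (by positivity) (Complex.ofReal_inj.1 h2))

/-- **The exponential means of a polynomial with an irrational coefficient.** -/
theorem tendsto_avg_poly : ∀ (d : ℕ) (P : ℝ[X]), P.natDegree = d →
    (∃ j, 1 ≤ j ∧ Irrational (P.coeff j)) →
      Tendsto (fun N => avg (range N) fun n => eAdd (P.eval (n : ℝ))) atTop (𝓝 0) := by
  intro d
  induction d using Nat.strong_induction_on with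
  | _ d ih =>
  intro P hd hP
  classical
  have hdeg : ∀ j, Irrational (P.coeff j) → j ≤ P.natDegree := fun j hj =>
    le_natDegree_of_ne_zero hj.ne_zero
  by_cases h2 : ∃ j, 2 ≤ j ∧ Irrational (P.coeff j)
  · -- van der Corput
    obtain ⟨k, hk2, hk, hmax⟩ : ∃ k, 2 ≤ k ∧ Irrational (P.coeff k) ∧
        ∀ j, k < j → ¬ Irrational (P.coeff j) := by
      obtain ⟨j, hj2, hj⟩ := h2
      have hne : ((range (P.natDegree + 1)).filter
          fun j => 2 ≤ j ∧ Irrational (P.coeff j)).Nonempty :=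
        ⟨j, mem_filter.2 ⟨mem_range.2 (Nat.lt_succ_of_le (hdeg j hj)), hj2, hj⟩⟩
      obtain ⟨-, hm2, hm⟩ := mem_filter.1 (Finset.max'_mem _ hne)
      refine ⟨_, hm2, hm, fun i hi hir => not_le.2 hi (Finset.le_max' _ i
        (mem_filter.2 ⟨mem_range.2 (Nat.lt_succ_of_le (hdeg i hir)), ?_, hir⟩))⟩
      omega
    refine tendsto_avg_of_correlation (fun n => (norm_eAdd _).le) fun e he => ?_
    set D := Polynomial.taylor (e : ℝ) P - P
    have hD : ∀ n : ℕ, eAdd (P.eval ((n + e : ℕ) : ℝ)) * conj (eAdd (P.eval (n : ℝ))) =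
        eAdd (D.eval (n : ℝ)) := fun n => by
      rw [eAdd_mul_conj, eval_sub, taylor_eval, Nat.cast_add]
    simp only [hD]
    have hP0 : P ≠ 0 := fun h => hk.ne_zero (by rw [h, coeff_zero])
    have hkd : k ≤ d := hd ▸ hdeg k hk
    refine ih D.natDegree ?_ D rfl ⟨k - 1, by omega, ?_⟩
    · have hT0 : Polynomial.taylor (e : ℝ) P ≠ 0 := fun h =>
        hP0 ((Polynomial.taylor_injective (e : ℝ)) (h.trans (map_zero _).symm))
      rcases eq_or_ne D 0 with h0 | h0
      · rw [h0, natDegree_zero]; omega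
      · rw [← hd, ← natDegree_taylor P (e : ℝ)]
        refine natDegree_lt_natDegree h0 (degree_sub_lt_left ?_ hT0 ?_)
        · rw [degree_eq_natDegree hT0, degree_eq_natDegree hP0, natDegree_taylor]
        · simp only [leadingCoeff, natDegree_taylor]
          exact coeff_taylor_natDegree ..
    have hexp : (Polynomial.taylor (e : ℝ) P).coeff (k - 1) =
        ∑ i ∈ range (P.natDegree + 1),
          ((i + (k - 1)).choose (k - 1) : ℝ) * P.coeff (i + (k - 1)) * (e : ℝ) ^ i := by
      rw [taylor_coeff, eval_eq_sum_range' (n := P.natDegree + 1)]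
      · exact sum_congr rfl fun i _ => by rw [hasseDeriv_coeff]
      · exact Nat.lt_succ_of_le ((natDegree_hasseDeriv_le P (k - 1)).trans (Nat.sub_le _ _))
    have hrest : ∃ r : ℚ, ∑ i ∈ Finset.Ico 2 (P.natDegree + 1),
        ((i + (k - 1)).choose (k - 1) : ℝ) * P.coeff (i + (k - 1)) * (e : ℝ) ^ i = (r : ℝ) := by
      have hr : ∀ i, 2 ≤ i → ∃ r : ℚ, P.coeff (i + (k - 1)) = (r : ℝ) := fun i hi =>
        exists_intCast_mul_of_not_irrational (hmax _ (by omega))
      choose! r hr' using hr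
      refine ⟨∑ i ∈ Finset.Ico 2 (P.natDegree + 1),
        ((i + (k - 1)).choose (k - 1) : ℚ) * r i * (e : ℚ) ^ i, ?_⟩
      push_cast
      exact sum_congr rfl fun i hi => by rw [hr' i (Finset.mem_Ico.1 hi).1]
    obtain ⟨r, hr⟩ := hrest
    rw [range_eq_Ico, sum_eq_sum_Ico_succ_bot (by omega), sum_eq_sum_Ico_succ_bot (by omega),
      hr] at hexp
    rw [coeff_sub, hexp]
    simp only [zero_add, Nat.choose_self, Nat.cast_one, one_mul, pow_zero, mul_one, pow_one]
    rw [add_sub_cancel_left, show 1 + (k - 1) = k by omega, mul_right_comm,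
      show (k.choose (k - 1) : ℝ) * e = ((k.choose (k - 1) * e : ℕ) : ℝ) by push_cast; ring]
    refine Irrational.add_ratCast r (hk.natCast_mul ?_)
    exact Nat.mul_ne_zero (Nat.choose_pos (by omega)).ne' he.ne'
  · -- periodicity
    push Not at h2
    obtain ⟨j, hj1, hj⟩ := hP
    obtain rfl : j = 1 := by
      by_contra hne
      exact h2 j (by omega) hj
    have hr : ∀ i, 2 ≤ i → ∃ r : ℚ, P.coeff i = (r : ℝ) := fun i hi =>
      exists_intCast_mul_of_not_irrational (h2 i hi)
    choose! r hr' using hr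
    obtain ⟨q, hq⟩ : ∃ q : ℕ, q = ∏ i ∈ range (P.natDegree + 1), (r i).den := ⟨_, rfl⟩
    have hq0 : q ≠ 0 := hq ▸ Finset.prod_ne_zero_iff.2 fun i _ => (r i).den_ne_zero
    refine tendsto_avg_of_periodic (fun n => (norm_eAdd _).le) (q := q)
      (μ := eAdd ((q : ℝ) * P.coeff 1)) (eAdd_ne_one_of_irrational (hj.natCast_mul hq0)) fun n => ?_
    have hterm : ∀ i ∈ range (P.natDegree + 1), ∃ z : ℤ,
        P.coeff i * ((n : ℝ) + q) ^ i - P.coeff i * (n : ℝ) ^ i =
          (z : ℝ) + if i = 1 then (q : ℝ) * P.coeff 1 else 0 := fun i hi => by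
      rcases i with _ | _ | i
      · exact ⟨0, by simp⟩
      · exact ⟨0, by simp; ring⟩
      · obtain ⟨w, hw⟩ : (q : ℤ) ∣ ((n : ℤ) + q) ^ (i + 2) - (n : ℤ) ^ (i + 2) :=
          dvd_trans ⟨1, by ring⟩ (sub_dvd_pow_sub_pow _ _ _)
        obtain ⟨c, hc⟩ : (r (i + 2)).den ∣ q := hq ▸ Finset.dvd_prod_of_mem _ hi
        refine ⟨(r (i + 2)).num * c * w, ?_⟩
        have hw' : ((n : ℝ) + q) ^ (i + 2) - (n : ℝ) ^ (i + 2) = (q : ℝ) * w := by exact_mod_cast hw
        have hden : ((r (i + 2)) : ℝ) * ((r (i + 2)).den : ℝ) = ((r (i + 2)).num : ℝ) := by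
          exact_mod_cast (r (i + 2)).mul_den_eq_num
        rw [if_neg (by omega), add_zero, ← mul_sub, hw', hr' (i + 2) (by omega), hc]
        push_cast
        linear_combination (c : ℝ) * w * hden
    choose! z hz using hterm
    have hval : P.eval ((n + q : ℕ) : ℝ) =
        P.eval (n : ℝ) + ((∑ i ∈ range (P.natDegree + 1), z i : ℤ) : ℝ) +
          (q : ℝ) * P.coeff 1 := by
      rw [eval_eq_sum_range, eval_eq_sum_range, Nat.cast_add, Int.cast_sum, add_assoc,
        ← sub_eq_iff_eq_add', ← sum_sub_distrib, sum_congr rfl hz, sum_add_distrib, sum_ite_eq',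
        if_pos (mem_range.2 (Nat.lt_succ_of_le (hdeg 1 hj)))]
    show eAdd (P.eval ((n + q : ℕ) : ℝ)) = _
    rw [hval, FA.ThreePrimes.eAdd_add, FA.ThreePrimes.eAdd_add_intCast, mul_comm]

/-- **Weyl's theorem**, exponential means. -/
theorem expMeanZero_poly (P : ℝ[X]) (hP : ∃ j, 1 ≤ j ∧ Irrational (P.coeff j)) :
    ExpMeanZero range fun n => P.eval (n : ℝ) := by
  intro h h0
  obtain ⟨j, hj1, hj⟩ := hP
  refine (tendsto_avg_poly _ (C (h : ℝ) * P) rfl ⟨j, hj1, ?_⟩).congr fun N => ?_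
  · rw [coeff_C_mul]; exact hj.intCast_mul h0
  · simp only [eval_mul, eval_C]

end FA.Equidist

end
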